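import Fermat.Agent.Miller.Subgroup
import Fermat.Agent.PrimalityCriteria.Basic
import Mathlib.Data.ZMod.Units
import Mathlib.FieldTheory.Finite.Basic

/-!
# Miller's primality test on GRH

For odd composite `n`, `n - 1 = 2 ^ s d` with `d` odd, the units `a` with `a ^ d = 1` or
`a ^ (2 ^ i d) = -1`, `i < s`, lie in a proper subgroup: the kernel of `a ↦ a ^ (n - 1)` if `n` is a
prime power, and otherwise `{a | a ^ (2 ^ j d) = ± 1}` for the largest `j < s` at which `-1` is a
value, which misses a unit that is the one or the other modulo two coprime factors of `n`.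
-/

set_option autoImplicit false
set_option linter.style.haveILetI false

noncomputable section

open FA.ArtinHooley (FieldRH)
open scoped Classical

namespace FA.Miller

/-- `n` is a strong probable prime to base `a`, where `n - 1 = 2 ^ s d`. -/
def Passes (n s d : ℕ) (a : ZMod n) : Prop := a ^ d = 1 ∨ ∃ i < s, a ^ (2 ^ i * d) = -1

theorem passes_of_prime {n s d : ℕ} (hn : n.Prime) (hsd : n - 1 = 2 ^ s * d) {a : ZMod n}
    (ha : a ≠ 0) : Passes n s d a := by
  haveI := Fact.mk hn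
  have key : ∀ k, a ^ (2 ^ k * d) = 1 → a ^ d = 1 ∨ ∃ i < k, a ^ (2 ^ i * d) = -1 := by
    intro k
    induction k with
    | zero => intro h; exact Or.inl (by simpa using h)
    | succ k ih =>
      intro h
      have h2 : (a ^ (2 ^ k * d)) ^ 2 = 1 := by
        rw [← pow_mul, ← h]
        ring_nf
      rcases sq_eq_one_iff.1 h2 with h3 | h3
      · rcases ih h3 with h4 | ⟨i, hi, h4⟩
        · exact Or.inl h4
        · exact Or.inr ⟨i, hi.trans (Nat.lt_succ_self k), h4⟩
      · exact Or.inr ⟨k, Nat.lt_succ_self k, h3⟩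
  refine key s ?_
  rw [← hsd]
  exact ZMod.pow_card_sub_one_eq_one ha

theorem neg_one_ne_one {n : ℕ} (hn : 2 < n) : (-1 : (ZMod n)ˣ) ≠ 1 := fun h => by
  haveI : Fact (2 < n) := ⟨hn⟩
  exact ZMod.neg_one_ne_one (congrArg Units.val h)

/-- A prime power which is not prime has a unit failing Fermat's congruence. -/
theorem exists_fermat_fail {p k : ℕ} (hp : p.Prime) (hk : 2 ≤ k) :
    ∃ u : (ZMod (p ^ k))ˣ, u ^ (p ^ k - 1) ≠ 1 := by
  have h1 : 1 < p ^ k := Nat.one_lt_pow (by omega) hp.one_lt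
  by_contra! h
  have hsq := ((FA.PrimalityCriteria.korselt h1).1
    ((FA.PrimalityCriteria.forall_units_iff h1).1 h)).1
  have := Nat.squarefree_iff_prime_squarefree.1 hsq p hp
  exact this (by rw [← sq]; exact pow_dvd_pow p hk)

/-- The squares of `-1` and the powers of `1`. -/
theorem pow_eq_one_of_lt {n d i j : ℕ} {u : (ZMod n)ˣ} (h : u ^ (2 ^ i * d) = -1) (hij : i < j) :
    u ^ (2 ^ j * d) = 1 := by
  obtain ⟨k, rfl⟩ : ∃ k, j = i + 1 + k := ⟨j - (i + 1), by omega⟩
  rw [show 2 ^ (i + 1 + k) * d = 2 ^ i * d * (2 * 2 ^ k) by ring, pow_mul, h, pow_mul, neg_one_sq,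
    one_pow]

/-- **The liars lie in a proper subgroup.** -/
theorem exists_subgroup_of_composite {n s d : ℕ} (hn : Odd n) (hn1 : 1 < n) (hc : ¬ n.Prime)
    (hd : Odd d) (hsd : n - 1 = 2 ^ s * d) :
    ∃ H : Subgroup (ZMod n)ˣ, H ≠ ⊤ ∧ ∀ u : (ZMod n)ˣ, Passes n s d (u : ZMod n) → u ∈ H := by
  haveI : NeZero n := ⟨by omega⟩
  have hn2 : 2 < n := by
    obtain ⟨k, hk⟩ := hn
    omega
  have hs : 0 < s := by
    rcases Nat.eq_zero_or_pos s with rfl | h
    · obtain ⟨k, hk⟩ := hn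
      obtain ⟨l, hl⟩ := hd
      rw [pow_zero, one_mul] at hsd
      omega
    · exact h
  have hu : ∀ u : (ZMod n)ˣ, Passes n s d (u : ZMod n) →
      u ^ d = 1 ∨ ∃ i < s, u ^ (2 ^ i * d) = -1 := fun u h => by
    rcases h with h | ⟨i, hi, h⟩
    · exact Or.inl (Units.ext (by rw [Units.val_pow_eq_pow_val, Units.val_one, h]))
    · exact Or.inr ⟨i, hi, Units.ext (by
        rw [Units.val_pow_eq_pow_val, Units.val_neg, Units.val_one, h])⟩
  by_cases hpow : IsPrimePow n
  · obtain ⟨p, k, hp, hk, rfl⟩ := (isPrimePow_nat_iff n).1 hpow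
    have hk2 : 2 ≤ k := by
      by_contra hlt
      obtain rfl : k = 1 := by omega
      exact hc (by rwa [pow_one])
    obtain ⟨w, hw⟩ := exists_fermat_fail hp hk2
    refine ⟨(powMonoidHom (p ^ k - 1)).ker, fun htop => hw ?_, fun u h => ?_⟩
    · have : w ∈ (powMonoidHom (p ^ k - 1)).ker := htop ▸ Subgroup.mem_top w
      simpa using this
    · rw [MonoidHom.mem_ker, powMonoidHom_apply, hsd]
      rcases hu u h with h1 | ⟨i, hi, h1⟩
      · rw [mul_comm, pow_mul, h1, one_pow]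
      · exact pow_eq_one_of_lt h1 hi
  · obtain ⟨p, hp, hpn⟩ := Nat.exists_prime_and_dvd (show n ≠ 1 by omega)
    obtain ⟨k, q, hpq, hnq⟩ := Nat.exists_eq_pow_mul_and_not_dvd (show n ≠ 0 by omega) p hp.ne_one
    have hq1 : q ≠ 1 := fun h => by
      rw [h, mul_one] at hnq
      rcases Nat.eq_zero_or_pos k with hk | hk
      · rw [hk, pow_zero] at hnq
        omega
      · exact hpow ((isPrimePow_nat_iff n).2 ⟨p, k, hp, hk, hnq.symm⟩)
    have hk0 : 0 < k := by
      rcases Nat.eq_zero_or_pos k with hk | hk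
      · rw [hk, pow_zero, one_mul] at hnq
        exact absurd (hnq ▸ hpn) hpq
      · exact hk
    have hco : (p ^ k).Coprime q := Nat.Coprime.pow_left _ (hp.coprime_iff_not_dvd.2 hpq)
    have hpk2 : 2 < p ^ k := by
      have h1 : p ≤ p ^ k := Nat.le_self_pow hk0.ne' p
      obtain ⟨l, hl⟩ := hn.of_dvd_nat hpn
      have := hp.two_le
      omega
    have hq2 : 2 < q := by
      obtain ⟨l, hl⟩ := hn.of_dvd_nat (show q ∣ n from hnq ▸ dvd_mul_left q _)
      omega
    obtain ⟨j, hj⟩ : ∃ j, j = Nat.findGreatest (fun i => ∃ u : (ZMod n)ˣ, u ^ (2 ^ i * d) = -1)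
        (s - 1) := ⟨_, rfl⟩
    have h0 : ∃ u : (ZMod n)ˣ, u ^ (2 ^ 0 * d) = -1 :=
      ⟨-1, by rw [pow_zero, one_mul]; exact hd.neg_one_pow⟩
    obtain ⟨w, hw⟩ : ∃ u : (ZMod n)ˣ, u ^ (2 ^ j * d) = -1 :=
      hj ▸ Nat.findGreatest_spec (P := fun i => ∃ u : (ZMod n)ˣ, u ^ (2 ^ i * d) = -1)
        (Nat.zero_le _) h0
    let H : Subgroup (ZMod n)ˣ :=
      { carrier := {u | u ^ (2 ^ j * d) = 1 ∨ u ^ (2 ^ j * d) = -1}
        one_mem' := Or.inl (one_pow _)
        mul_mem' := fun {a b} ha hb => by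
          rcases ha with ha | ha <;> rcases hb with hb | hb <;>
            simp [mul_pow, ha, hb]
        inv_mem' := fun {a} ha => by
          rcases ha with ha | ha <;> simp [inv_pow, ha] }
    refine ⟨H, fun htop => ?_, fun u h => ?_⟩
    · subst hnq
      haveI : NeZero q := ⟨by omega⟩
      haveI : NeZero (p ^ k) := ⟨by omega⟩
      obtain ⟨e, he⟩ : ∃ e : (ZMod (p ^ k * q))ˣ ≃* (ZMod (p ^ k))ˣ × (ZMod q)ˣ,
          e = (Units.mapEquiv (ZMod.chineseRemainder hco).toMulEquiv).trans MulEquiv.prodUnits :=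
        ⟨_, rfl⟩
      have hneg : e (-1) = (-1, -1) := by
        rw [he]
        apply Prod.ext <;> apply Units.ext <;>
          simp [MulEquiv.prodUnits, map_neg]
      have hw' : (e w).1 ^ (2 ^ j * d) = -1 := by
        have := congrArg Prod.fst (congrArg e hw)
        rwa [map_pow, hneg, Prod.pow_fst] at this
      have hmem : e.symm ((e w).1, 1) ∈ H := htop ▸ Subgroup.mem_top _
      rcases hmem with h1 | h1 <;>
        have h2 := congrArg e h1 <;>
        rw [map_pow, e.apply_symm_apply, Prod.pow_mk, hw', one_pow] at h2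
      · rw [map_one] at h2
        exact neg_one_ne_one hpk2 (congrArg Prod.fst h2)
      · rw [hneg] at h2
        exact neg_one_ne_one hq2 (congrArg Prod.snd h2).symm
    · rcases hu u h with h1 | ⟨i, hi, h1⟩
      · exact Or.inl (by rw [mul_comm, pow_mul, h1, one_pow])
      · have hij : i ≤ j := hj ▸ Nat.le_findGreatest (by omega) ⟨u, h1⟩
        rcases hij.lt_or_eq with hlt | rfl
        · exact Or.inl (pow_eq_one_of_lt h1 hlt)
        · exact Or.inr h1

/-- **Miller's test.** -/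
theorem exists_witness_of_GRH : ∃ B : ℝ, 0 < B ∧
    ((∀ (E : Type) [Field E] [NumberField E], FieldRH E) →
      ∀ n : ℕ, Odd n → 1 < n → ¬ n.Prime → ∀ s d : ℕ, Odd d → n - 1 = 2 ^ s * d →
        ∃ a : ℕ, 1 < a ∧ a < n ∧ (a : ℝ) ≤ B * Real.log n ^ 2 * Real.log (16 * Real.log n) ^ 8 ∧
          ¬ Passes n s d (a : ZMod n)) := by
  obtain ⟨B, hB, h⟩ := exists_prime_outside_of_GRH
  refine ⟨B, hB, fun hGRH n hn hn1 hc s d hd hsd => ?_⟩
  haveI : NeZero n := ⟨by omega⟩
  have hn3 : 3 ≤ n := by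
    obtain ⟨k, hk⟩ := hn
    omega
  obtain ⟨H, hH, hHu⟩ := exists_subgroup_of_composite hn hn1 hc hd hsd
  obtain ⟨l, hl, hln, hlu, hle⟩ := h hGRH n hn3 H hH
  obtain ⟨u, hu⟩ : ∃ u : (ZMod n)ˣ, (u : ZMod n) = l :=
    ⟨ZMod.unitOfCoprime l (hl.coprime_iff_not_dvd.2 hln), rfl⟩
  have hu1 : u ≠ 1 := fun e => hlu u hu (e ▸ one_mem H)
  refine ⟨l % n, ?_, Nat.mod_lt _ (by omega),
    (Nat.cast_le.2 (Nat.mod_le l n)).trans hle, fun hp => hlu u hu (hHu u ?_)⟩
  · rcases Nat.eq_zero_or_pos (l % n) with h0 | h0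
    · exact absurd (Nat.dvd_of_mod_eq_zero h0) (fun hd' => hln (by
        rcases (Nat.dvd_prime hl).1 hd' with h1 | h1 <;> simp [h1] at hn1 ⊢))
    · by_contra hlt
      have h1 : l % n = 1 := by omega
      exact hu1 (Units.ext (by rw [hu, ← ZMod.natCast_mod, h1, Nat.cast_one, Units.val_one]))
  · rwa [ZMod.natCast_mod, ← hu] at hp

end FA.Miller

end
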