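import Fermat.Agent.ClassGroupGRH.Split
import Fermat.Agent.Weinberger.Frobenius
import Mathlib.FieldTheory.Galois.Basic
import Mathlib.NumberTheory.NumberField.Cyclotomic.Basic
import Mathlib.NumberTheory.NumberField.Discriminant.Different

/-!
# The least prime outside a subgroup of `(ℤ / n) ˣ`

On GRH a proper subgroup misses a prime `≤ B log ^ 2 n log (16 log n) ^ 8` not dividing `n`
(Ankeny, Montgomery, Bach): compare all primes with those splitting completely in the subfield `E`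
of `ℚ(ζ_n)` fixed by the subgroup, whose discriminant is at most `n ^ [E : ℚ]`.
-/

set_option autoImplicit false
set_option linter.style.haveILetI false

noncomputable section

open NumberField IsDedekindDomain Module Polynomial
open FA.ArtinHooley (FieldRH fieldSize)
open scoped Real Classical

namespace FA.Miller

/-- The discriminant of a subfield. -/
theorem log_discr_sub_le (E L : Type) [Field E] [NumberField E] [Field L] [NumberField L]
    [Algebra E L] :
    (finrank E L : ℝ) * Real.log (((discr E).natAbs : ℕ) : ℝ) ≤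
      Real.log (((discr L).natAbs : ℕ) : ℝ) := by
  rw [← Real.log_pow, ← Nat.cast_pow]
  refine Real.log_le_log (Nat.cast_pos.2 (pow_pos (Int.natAbs_pos.2 (discr_ne_zero E)) _))
    (Nat.cast_le.2 (Nat.le_of_dvd (Int.natAbs_pos.2 (discr_ne_zero L)) ?_))
  rw [natAbs_discr_eq_absNorm_differentIdeal_mul_natAbs_discr_pow E (𝓞 E) L (𝓞 L)]
  exact dvd_mul_left _ _

/-- The field cut out by a subgroup, and its primes. -/
theorem exists_subfield {n : ℕ} [NeZero n] {H : Subgroup (ZMod n)ˣ} (hH : H ≠ ⊤) :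
    ∃ E : IntermediateField ℚ (CyclotomicField n ℚ), ∃ _ : IsGalois ℚ E, 2 ≤ finrank ℚ E ∧
      Real.log (((discr E).natAbs : ℕ) : ℝ) ≤ finrank ℚ E * Real.log n ∧
      ∀ w : HeightOneSpectrum (𝓞 ℚ), w ∉ FA.NaturalChebotarev.someFrobSet ℚ E {1} →
        (n : 𝓞 ℚ) ∉ w.asIdeal → ∃ p : ℕ, p.Prime ∧ Ideal.absNorm w.asIdeal = p ∧ ¬ p ∣ n ∧
          ∀ u : (ZMod n)ˣ, (u : ZMod n) = p → u ∉ H := by
  haveI : NeZero (n : ℚ) := ⟨Nat.cast_ne_zero.mpr (NeZero.ne n)⟩
  haveI : IsCyclotomicExtension {n} ℚ (CyclotomicField n ℚ) :=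
    CyclotomicField.isCyclotomicExtension n ℚ
  haveI : IsGalois ℚ (CyclotomicField n ℚ) := IsCyclotomicExtension.isGalois {n} ℚ _
  have hirr := Polynomial.cyclotomic.irreducible_rat (NeZero.pos n)
  obtain ⟨f, hf⟩ : ∃ f : (CyclotomicField n ℚ ≃ₐ[ℚ] CyclotomicField n ℚ) ≃* (ZMod n)ˣ,
      f = IsCyclotomicExtension.autEquivPow (CyclotomicField n ℚ) hirr := ⟨_, rfl⟩
  obtain ⟨S, hS⟩ : ∃ S, S = H.comap f.toMonoidHom := ⟨_, rfl⟩
  haveI : S.Normal := ⟨fun s hs g => by
    have hcomm : g * s * g⁻¹ = s := f.injective (by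
      rw [map_mul, map_mul, map_inv, mul_comm (f g), mul_inv_cancel_right])
    rwa [hcomm]⟩
  haveI hgal : IsGalois ℚ (IntermediateField.fixedField S) :=
    IsGalois.of_fixedField_normal_subgroup S
  have hmul := Module.finrank_mul_finrank ℚ (IntermediateField.fixedField S) (CyclotomicField n ℚ)
  have hcard := IntermediateField.finrank_fixedField_eq_card S
  refine ⟨IntermediateField.fixedField S, hgal, ?_, ?_, fun w hw hnw => ?_⟩
  · by_contra hlt
    have h1 : finrank ℚ (IntermediateField.fixedField S) = 1 := by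
      have := Module.finrank_pos (R := ℚ) (M := IntermediateField.fixedField S)
      omega
    rw [h1, one_mul, hcard, ← IsGalois.card_aut_eq_finrank ℚ (CyclotomicField n ℚ)] at hmul
    refine hH ((Subgroup.eq_top_iff' _).2 fun u => ?_)
    have := (Subgroup.card_eq_iff_eq_top S).1 hmul
    rw [hS, Subgroup.eq_top_iff'] at this
    simpa using this (f.symm u)
  · have h1 := log_discr_sub_le (IntermediateField.fixedField S) (CyclotomicField n ℚ)
    have hd : Real.log (((discr (CyclotomicField n ℚ)).natAbs : ℕ) : ℝ) ≤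
        (finrank ℚ (CyclotomicField n ℚ) : ℝ) * Real.log n := by
      rw [← Real.log_pow, IsCyclotomicExtension.Rat.finrank n (CyclotomicField n ℚ)]
      refine Real.log_le_log (Nat.cast_pos.2 (Int.natAbs_pos.2 (discr_ne_zero _))) ?_
      rw [← Nat.cast_pow, Nat.cast_le, IsCyclotomicExtension.Rat.natAbs_discr n _]
      exact Nat.div_le_self _ _
    rw [← hmul, Nat.cast_mul] at hd
    refine le_of_mul_le_mul_left ?_ (Nat.cast_pos.2
      (Module.finrank_pos (R := IntermediateField.fixedField S) (M := CyclotomicField n ℚ)))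
    exact (h1.trans hd).trans_eq (by ring)
  · obtain ⟨p, hp, hpw⟩ := FA.Ext.exists_rat_prime_mem w
    have hN : Ideal.absNorm w.asIdeal = p := by
      have h1 : Ideal.absNorm w.asIdeal ∣ p := by
        have := map_dvd Ideal.absNorm (Ideal.dvd_span_singleton.2 hpw)
        rwa [Ideal.absNorm_span_singleton, show Algebra.norm ℤ ((p : ℕ) : 𝓞 ℚ) = (p : ℤ) by
          rw [← map_natCast (algebraMap ℤ (𝓞 ℚ)), Algebra.norm_algebraMap,
            NumberField.RingOfIntegers.rank, Module.finrank_self, pow_one],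
          Int.natAbs_natCast] at this
      rcases (Nat.dvd_prime hp).1 h1 with h2 | h2
      · have := FA.Ext.two_le_absNorm w
        omega
      · exact h2
    have hpn : ¬ p ∣ n := fun hd => hnw (by
      obtain ⟨c, hc⟩ := hd
      rw [hc, Nat.cast_mul]
      exact w.asIdeal.mul_mem_right _ hpw)
    refine ⟨p, hp, hN, hpn, fun u hu huH => hw ?_⟩
    obtain ⟨Q, hQ, hQw, τ, hτ⟩ := FA.Chebotarev.exists_isArithFrobAt (L := CyclotomicField n ℚ) w
    haveI := hQ.isPrime
    have hpQ : (p : 𝓞 (CyclotomicField n ℚ)) ∈ Q := by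
      rw [← hQw, Ideal.mem_comap, map_natCast] at hpw
      exact hpw
    have hnQ : (n : 𝓞 (CyclotomicField n ℚ)) ∉ Q := fun hmem => hQ.ne_top (by
      obtain ⟨s, t, hst⟩ := (hp.coprime_iff_not_dvd.2 hpn).cast (R := 𝓞 (CyclotomicField n ℚ))
      rw [Ideal.eq_top_iff_one, ← hst]
      exact Q.add_mem (Q.mul_mem_left _ hpQ) (Q.mul_mem_left _ hmem))
    have hz := IsCyclotomicExtension.zeta_spec n ℚ (CyclotomicField n ℚ)
    have h1 : τ • hz.toInteger = hz.toInteger ^ Nat.card (𝓞 ℚ ⧸ Q.under (𝓞 ℚ)) :=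
      hτ.apply_of_pow_eq_one hz.toInteger_isPrimitiveRoot.pow_eq_one hnQ
    rw [hQw, ← Submodule.cardQuot_apply, ← Ideal.absNorm_apply, hN] at h1
    have h4 := congrArg (algebraMap (𝓞 (CyclotomicField n ℚ)) (CyclotomicField n ℚ)) h1
    rw [map_pow] at h4
    replace h4 : τ (IsCyclotomicExtension.zeta n ℚ (CyclotomicField n ℚ)) =
        IsCyclotomicExtension.zeta n ℚ (CyclotomicField n ℚ) ^ p := h4
    rw [← hz.autToPow_spec ℚ τ, (hz.isOfFinOrder (NeZero.ne n)).pow_eq_pow_iff_modEq,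
      ← hz.eq_orderOf] at h4
    have hfu : f τ = u := Units.ext (by
      rw [hu, ← (ZMod.natCast_eq_natCast_iff _ _ _).2 h4, ZMod.natCast_zmod_val, hf]
      rfl)
    have hτS : τ ∈ S := by
      rw [hS, Subgroup.mem_comap]
      show f τ ∈ H
      rwa [hfu]
    haveI : (Q.under (𝓞 (IntermediateField.fixedField S))).IsMaximal :=
      Ideal.IsMaximal.under (𝓞 (IntermediateField.fixedField S)) Q
    refine ⟨Q.under (𝓞 (IntermediateField.fixedField S)), inferInstance,
      by rw [Ideal.under_under, hQw], _, ?_,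
      FA.Weinberger.isArithFrobAt_restrict (F := IntermediateField.fixedField S) hτ⟩
    rw [Set.mem_singleton_iff]
    refine AlgEquiv.ext fun y => (algebraMap _ (CyclotomicField n ℚ)).injective ?_
    rw [AlgEquiv.restrictNormal_commutes]
    exact y.2 ⟨τ, hτS⟩

/-- **The least prime outside a subgroup.** -/
theorem exists_prime_outside_of_GRH : ∃ B : ℝ, 0 < B ∧
    ((∀ (E : Type) [Field E] [NumberField E], FieldRH E) →
      ∀ n : ℕ, 3 ≤ n → ∀ H : Subgroup (ZMod n)ˣ, H ≠ ⊤ →
        ∃ p : ℕ, p.Prime ∧ ¬ p ∣ n ∧ (∀ u : (ZMod n)ˣ, (u : ZMod n) = p → u ∉ H) ∧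
          (p : ℝ) ≤ B * Real.log n ^ 2 * Real.log (16 * Real.log n) ^ 8) := by
  obtain ⟨B, hB, h⟩ := FA.ClassGRH.exists_nonsplit_prime_of_RH.{0, 0}
  refine ⟨B * 4 ^ 2, by positivity, fun hGRH n hn H hH => ?_⟩
  haveI : NeZero n := ⟨by omega⟩
  obtain ⟨E, hgal, hE2, hdE, hE⟩ := exists_subfield hH
  haveI := hgal
  have hl1 : 1 ≤ Real.log n := by
    rw [Real.le_log_iff_exp_le (by positivity)]
    exact Real.exp_one_lt_three.le.trans (Nat.ofNat_le_cast.2 hn)
  obtain ⟨R, hR⟩ : ∃ R, R = 3 + Real.log n := ⟨_, rfl⟩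
  have hQR : fieldSize ℚ ≤ R := by
    rw [hR, fieldSize, Rat.numberField_discr, Module.finrank_self]
    norm_num
    linarith
  have hER : fieldSize E ≤ finrank ℚ E * R := by
    rw [hR, fieldSize]
    have : (2 : ℝ) ≤ finrank ℚ E := by exact_mod_cast hE2
    nlinarith
  obtain ⟨w, hw, hnw, hle⟩ := h (hGRH ℚ) (hGRH E) hE2 R n hQR hER (NeZero.ne n) (by linarith)
  obtain ⟨p, hp, hN, hpn, hu⟩ := hE w hw hnw
  refine ⟨p, hp, hpn, hu, ?_⟩
  rw [hN] at hle
  refine hle.trans ?_
  have hR0 : 1 ≤ R := by linarith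
  calc B * R ^ 2 * Real.log (2 * R) ^ 8
      ≤ B * (4 * Real.log n) ^ 2 * Real.log (16 * Real.log n) ^ 8 := by
        have hlog : Real.log (2 * R) ≤ Real.log (16 * Real.log n) :=
          Real.log_le_log (by linarith) (by linarith)
        have hl0 : 0 ≤ Real.log (2 * R) := Real.log_nonneg (by linarith)
        gcongr
        linarith
    _ = _ := by ring

end FA.Miller

end
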